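import Mathlib

/-! Over an algebraically closed field `K`, tensor products of extension fields are domains. -/

set_option autoImplicit false
set_option linter.style.haveILetI false

open Polynomial
open scoped TensorProduct

namespace Fermat.Agent.Spc

/-- Nullstellensatz -/
theorem exists_algHom {K A : Type*} [Field K] [IsAlgClosed K] [CommRing A] [Nontrivial A]
    [Algebra K A] [Algebra.FiniteType K A] : Nonempty (A →ₐ[K] K) := by
  obtain ⟨m, hm⟩ := Ideal.exists_maximal A
  letI : Field (A ⧸ m) := Ideal.Quotient.field m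
  haveI : Algebra.FiniteType K (A ⧸ m) := inferInstance
  haveI : Module.Finite K (A ⧸ m) := finite_of_finite_type_of_isJacobsonRing K (A ⧸ m)
  have hbij := IsAlgClosed.algebraMap_bijective_of_isIntegral (k := K) (K := A ⧸ m)
  let e : K ≃ₐ[K] (A ⧸ m) := AlgEquiv.ofBijective (Algebra.ofId K (A ⧸ m)) hbij
  exact ⟨e.symm.toAlgHom.comp (Ideal.Quotient.mkₐ K m)⟩

/-- `U ⊗ F` is a domain -/
theorem isDomain_tensor (K U F : Type*) [Field K] [IsAlgClosed K] [Field U] [Field F] [Algebra K U]
    [Algebra K F] : IsDomain (U ⊗[K] F) := by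
  classical
  have hinj : Function.Injective
      (Algebra.TensorProduct.includeLeft : U →ₐ[U] U ⊗[K] F) :=
    Algebra.TensorProduct.includeLeft_injective (algebraMap K F).injective
  haveI : Nontrivial (U ⊗[K] F) := hinj.nontrivial
  haveI : NoZeroDivisors (U ⊗[K] F) := by
    constructor
    intro s t hst
    by_contra hcon
    push Not at hcon
    obtain ⟨hs, ht⟩ := hcon
    let e := Module.Free.chooseBasis K F
    let E := Algebra.TensorProduct.basis U e
    have hs' : E.repr s ≠ 0 := by simpa using hs
    have ht' : E.repr t ≠ 0 := by simpa using ht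
    obtain ⟨i, hi⟩ := Finsupp.ne_iff.mp hs'
    obtain ⟨j, hj⟩ := Finsupp.ne_iff.mp ht'
    rw [Finsupp.zero_apply] at hi hj
    set u := E.repr s with hu
    set v := E.repr t with hv
    -- the finitely generated algebra
    let T : Finset U := u.support.image u ∪ v.support.image v ∪ {(u i)⁻¹, (v j)⁻¹}
    let A : Subalgebra K U := Algebra.adjoin K (T : Set U)
    have huA : ∀ l, u l ∈ A := by
      intro l
      by_cases hl : l ∈ u.support
      · exact Algebra.subset_adjoin (by
          simp only [T, Finset.coe_union, Finset.coe_image]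
          exact Or.inl (Or.inl ⟨l, hl, rfl⟩))
      · rw [Finsupp.notMem_support_iff.mp hl]
        exact zero_mem _
    have hvA : ∀ l, v l ∈ A := by
      intro l
      by_cases hl : l ∈ v.support
      · exact Algebra.subset_adjoin (by
          simp only [T, Finset.coe_union, Finset.coe_image]
          exact Or.inl (Or.inr ⟨l, hl, rfl⟩))
      · rw [Finsupp.notMem_support_iff.mp hl]
        exact zero_mem _
    have hui : (u i)⁻¹ ∈ A := Algebra.subset_adjoin (by simp [T])
    have hvj : (v j)⁻¹ ∈ A := Algebra.subset_adjoin (by simp [T])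
    haveI : Algebra.FiniteType K A := by
      rw [← Subalgebra.fg_iff_finiteType]
      exact ⟨T, rfl⟩
    obtain ⟨χ⟩ := exists_algHom (K := K) (A := A)
    let EA := Algebra.TensorProduct.basis A e
    let φA : A ⊗[K] F →ₐ[K] U ⊗[K] F := Algebra.TensorProduct.map A.val (AlgHom.id K F)
    have hφA : Function.Injective φA :=
      Module.Flat.rTensor_preserves_injective_linearMap (M := F) A.val.toLinearMap
        Subtype.val_injective
    let φχ : A ⊗[K] F →ₐ[K] F := Algebra.TensorProduct.lift
      ((Algebra.ofId K F).comp χ) (AlgHom.id K F) (fun _ _ => Commute.all _ _)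
    have hφχ : ∀ (a : A) (f : F), φχ (a ⊗ₜ f) = algebraMap K F (χ a) * f := by
      intro a f
      rw [Algebra.TensorProduct.lift_tmul]
      rfl
    let s' : A ⊗[K] F := ∑ l ∈ u.support, (⟨u l, huA l⟩ : A) ⊗ₜ e l
    let t' : A ⊗[K] F := ∑ l ∈ v.support, (⟨v l, hvA l⟩ : A) ⊗ₜ e l
    have hs1 : φA s' = s := by
      rw [← E.linearCombination_repr s, Finsupp.linearCombination_apply, Finsupp.sum, map_sum]
      refine Finset.sum_congr rfl fun l _ => ?_
      rw [Algebra.TensorProduct.basis_apply, TensorProduct.smul_tmul', smul_eq_mul, mul_one]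
      rfl
    have ht1 : φA t' = t := by
      rw [← E.linearCombination_repr t, Finsupp.linearCombination_apply, Finsupp.sum, map_sum]
      refine Finset.sum_congr rfl fun l _ => ?_
      rw [Algebra.TensorProduct.basis_apply, TensorProduct.smul_tmul', smul_eq_mul, mul_one]
      rfl
    have hst' : s' * t' = 0 := by
      apply hφA
      show φA (s' * t') = φA 0
      rw [map_mul, hs1, ht1, hst, map_zero]
    have h1 : φχ s' * φχ t' = 0 := by rw [← map_mul, hst', map_zero]
    have key : ∀ (w : Module.Free.ChooseBasisIndex K F →₀ U) (hw : ∀ l, w l ∈ A)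
        (l₀ : Module.Free.ChooseBasisIndex K F), w l₀ ≠ 0 → (w l₀)⁻¹ ∈ A →
        φχ (∑ l ∈ w.support, (⟨w l, hw l⟩ : A) ⊗ₜ e l) ≠ 0 := by
      intro w hw l₀ hl₀ hinv h0
      rw [map_sum] at h0
      have h2 : ∑ l ∈ w.support, χ ⟨w l, hw l⟩ • e l = 0 := by
        rw [← h0]
        refine Finset.sum_congr rfl fun l _ => ?_
        rw [hφχ, Algebra.smul_def]
      have h3 := linearIndependent_iff'.mp e.linearIndependent _ _ h2 l₀
        (Finsupp.mem_support_iff.mpr hl₀)
      have h4 : (⟨w l₀, hw l₀⟩ : A) * ⟨(w l₀)⁻¹, hinv⟩ = 1 :=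
        Subtype.ext (mul_inv_cancel₀ hl₀)
      have h5 := congrArg χ h4
      rw [map_mul, h3, zero_mul, map_one] at h5
      exact zero_ne_one h5
    rcases mul_eq_zero.mp h1 with h | h
    · exact key u huA i hi hui h
    · exact key v hvA j hj hvj h
  exact NoZeroDivisors.to_isDomain _

/-- injectivity of `U ⊗ F → B` -/
theorem indep_of_transcendental {K F U B : Type*} [Field K] [Field F] [Field U] [Field B]
    [Algebra K F] [Algebra K U] [Algebra U B] [IsAlgClosed K] (ι : F →+* B)
    (hι : ∀ a : K, ι (algebraMap K F a) = algebraMap U B (algebraMap K U a))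
    {x : F} (hF : ∀ f : F, ∃ q : K[X][X], q ≠ 0 ∧ eval₂ (aeval x : K[X] →ₐ[K] F).toRingHom f q = 0)
    (hx : Transcendental U (ι x)) {ι' : Type*} {e : ι' → F} (he : LinearIndependent K e) :
    LinearIndependent U (fun i => ι (e i)) := by
  classical
  haveI := isDomain_tensor K U F
  letI : Algebra K B := ((algebraMap U B).comp (algebraMap K U)).toAlgebra
  haveI : IsScalarTower K U B := IsScalarTower.of_algebraMap_eq fun _ => rfl
  let ιK : F →ₐ[K] B := { ι with commutes' := fun a => hι a }
  let jj : (U ⊗[K] F) →ₐ[U] B := Algebra.TensorProduct.lift (Algebra.ofId U B) ιK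
    (fun _ _ => Commute.all _ _)
  have hjj : ∀ (u : U) (f : F), jj (u ⊗ₜ f) = algebraMap U B u * ι f := by
    intro u f
    rw [Algebra.TensorProduct.lift_tmul]
    rfl
  -- `T` as an algebra over `U[X]`
  let T := U ⊗[K] F
  let θ : U[X] →ₐ[U] T := aeval ((1 : U) ⊗ₜ[K] x)
  letI : Algebra U[X] T := θ.toRingHom.toAlgebra
  have hθ : ∀ p : U[X], algebraMap U[X] T p = θ p := fun p => rfl
  have hjθ : ∀ p : U[X], jj (θ p) = aeval (ι x) p := by
    intro p
    show jj (aeval ((1 : U) ⊗ₜ[K] x) p) = _
    rw [← aeval_algHom_apply, hjj, map_one, one_mul]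
  -- all elements are algebraic over `U[X]`
  have halg : ∀ t : T, IsAlgebraic U[X] t := by
    have h1 : ∀ u : U, IsAlgebraic U[X] (u ⊗ₜ[K] (1 : F)) := by
      intro u
      have h2 : algebraMap U[X] T (C u) = u ⊗ₜ[K] (1 : F) := by
        rw [hθ]
        show aeval ((1 : U) ⊗ₜ[K] x) (C u) = _
        rw [aeval_C]
        rfl
      rw [← h2]
      exact isAlgebraic_algebraMap _
    have h3 : ∀ f : F, IsAlgebraic U[X] ((1 : U) ⊗ₜ[K] f) := by
      intro f
      obtain ⟨q, hq, h0⟩ := hF f
      refine ⟨q.map (mapRingHom (algebraMap K U)), ?_, ?_⟩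
      · rw [Polynomial.map_ne_zero_iff (Polynomial.map_injective _ (algebraMap K U).injective)]
        exact hq
      · have h4 : (algebraMap U[X] T).comp (mapRingHom (algebraMap K U)) =
            (Algebra.TensorProduct.includeRight : F →ₐ[K] T).toRingHom.comp
              (aeval x : K[X] →ₐ[K] F).toRingHom := by
          refine Polynomial.ringHom_ext (fun a => ?_) ?_
          · show θ ((C a).map (algebraMap K U)) = (1 : U) ⊗ₜ[K] (aeval x (C a))
            rw [map_C, aeval_C, aeval_C, Algebra.TensorProduct.algebraMap_apply]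
            show (algebraMap K U a) ⊗ₜ[K] (1 : F) = _
            rw [Algebra.algebraMap_eq_smul_one, Algebra.algebraMap_eq_smul_one,
              TensorProduct.smul_tmul]
          · show θ (X.map (algebraMap K U)) = (1 : U) ⊗ₜ[K] (aeval x X)
            rw [Polynomial.map_X]
            show aeval ((1 : U) ⊗ₜ[K] x) X = _
            rw [aeval_X, aeval_X]
        rw [aeval_def, eval₂_map, h4]
        have h5 := hom_eval₂ q (aeval x : K[X] →ₐ[K] F).toRingHom
          (Algebra.TensorProduct.includeRight : F →ₐ[K] T).toRingHom f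
        rw [h0, map_zero] at h5
        exact h5.symm
    intro t
    induction t using TensorProduct.induction_on with
    | zero => exact isAlgebraic_zero
    | tmul u f =>
      have h4 : u ⊗ₜ[K] f = (u ⊗ₜ[K] (1 : F)) * ((1 : U) ⊗ₜ[K] f) := by
        rw [Algebra.TensorProduct.tmul_mul_tmul, mul_one, one_mul]
      rw [h4]
      exact (h1 u).mul (h3 f)
    | add s t hs ht => exact hs.add ht
  have hinj : Function.Injective jj := by
    rw [injective_iff_map_eq_zero]
    intro t ht
    by_contra ht0
    obtain ⟨p, hp, s, hs⟩ := (halg t).exists_nonzero_dvd (mem_nonZeroDivisors_of_ne_zero ht0)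
    apply hx
    refine ⟨p, hp, ?_⟩
    rw [← hjθ, ← hθ, hs, map_mul, ht, zero_mul]
  have h1 : LinearIndependent U (fun i => (1 : U) ⊗ₜ[K] (e i)) :=
    Module.Flat.linearIndependent_one_tmul he
  have h2 := h1.map' jj.toLinearMap (LinearMap.ker_eq_bot.mpr hinj)
  have h3 : (fun i => ι (e i)) = ⇑jj.toLinearMap ∘ (fun i => (1 : U) ⊗ₜ[K] (e i)) := by
    ext i
    show _ = jj ((1 : U) ⊗ₜ[K] (e i))
    rw [hjj, map_one, one_mul]
  rw [h3]
  exact h2

end Fermat.Agent.Spc
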