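import Fermat.Agent.Spc.Main

/-! Divisibility of the Jacobian in characteristic zero. -/

set_option autoImplicit false
set_option linter.style.haveILetI false

open Polynomial AlgebraicCurve Filter Module
open Fermat.Agent.Ultra Fermat.Agent.BCh

namespace Fermat.Agent.Zeta

variable {K F : Type*} [Field K] [Field F] [Algebra K F] [RRC.FF K F] [IsAlgClosed K] {p : ℕ}
  [CharP K p] {φ : SemilinearAut K F} {q : ℕ}

/-- `Pic0` over `𝔽̄_p` is `ℓ`-divisible -/
theorem divisible (h : Frob p φ q) (ℓ : ℕ) [hℓ : Fact ℓ.Prime] (hqℓ : ¬ ℓ ∣ q) (c : Pic0 K F) :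
    ∃ c', ℓ • c' = c := by
  rcases Nat.eq_zero_or_pos (genusFF K F) with hg | hg
  · exact ⟨0, by rw [smul_zero, pic0_trivial hg c]⟩
  · obtain ⟨P₀⟩ := RRC.instNonemptyPlace (K := K) (F := F)
    obtain ⟨n, hn0, hn⟩ := h.place_per P₀
    have hT := torData (h.pow hn0) hn hg ℓ
      (fun hdvd => hqℓ (hℓ.out.dvd_of_dvd_pow hdvd))
    exact hT.divisible c

end Fermat.Agent.Zeta

namespace Fermat.Agent.Ultra

variable {I : Type*} {𝒰 : Ultrafilter I} {k : I → Type*} {F : I → Type*}
  [∀ i, Field (k i)] [∀ i, Field (F i)] [∀ i, Algebra (k i) (F i)] [∀ i, RRC.FF (k i) (F i)]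
  {U B : Type*} [Field U] [Field B] [Algebra U B] (d : UData 𝒰 k F U B)
  [CharZero U] [∀ i, IsAlgClosed (k i)] {G : ℕ} [RRC.FF U B]

include d in
/-- **transfer of divisibility** -/
theorem UData.divisible (hG : ∀ i, genusFF (k i) (F i) ≤ G) {n : ℕ}
    (h : ∀ᶠ i in (𝒰 : Filter I), ∀ c : Pic0 (k i) (F i), ∃ c', n • c' = c) (c : Pic0 U B) :
    ∃ c', n • c' = c := by
  classical
  obtain ⟨D, hD⟩ := Pic0.mk_surjective c
  set e : ∀ i, Pic0 (k i) (F i) := fun i => Pic0.mk (d.specZ hG i D) with he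
  have hec : d.Lim hG e c := ⟨D, hD, Eventually.of_forall fun _ => rfl⟩
  have h1 : ∀ i, ∃ c' : Pic0 (k i) (F i), (∃ c', n • c' = e i) → n • c' = e i := by
    intro i
    by_cases hi : ∃ c', n • c' = e i
    · obtain ⟨c', hc'⟩ := hi
      exact ⟨c', fun _ => hc'⟩
    · exact ⟨0, fun h => absurd h hi⟩
  choose e' he' using h1
  obtain ⟨x, hx⟩ := d.exists_lim hG e'
  refine ⟨x, ?_⟩
  have h2 := d.lim_nsmul hG hx n
  rw [← natCast_zsmul, d.lim_iff hG h2 hec]
  filter_upwards [h] with i hi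
  rw [natCast_zsmul]
  exact he' i (hi (e i))

end Fermat.Agent.Ultra

namespace Fermat.Agent.Spc

/-- **the Jacobian is divisible by primes** -/
theorem divisible_prime (K F : Type*) [Field K] [Field F] [Algebra K F]
    [IsAlgClosed K] [CharZero K] [Fermat.Agent.FF.IsFnField K F] (ℓ : ℕ) [hℓ : Fact ℓ.Prime]
    (c : Pic0 K F) : ∃ c', ℓ • c' = c := by
  obtain ⟨I, 𝒰, p, hp, kk, h1, h2, h3, Fi, h4, h5, h6, G, hG, U, B, h7, h8, h9, h10, D, h11, E,
    hN, hφ⟩ := exists_link K F
  haveI : IsAlgClosed U := D.toUFam.isAlgClosed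
  haveI : Fermat.Agent.FF.IsFnField U B := D.isFnField hG
  haveI : RRC.FF U B := RRC.ff_of_isFnField U B
  haveI : RRC.FF K F := RRC.ff_of_isFnField K F
  have hB : Nat.card (Pic0.torsion U B ℓ) = ℓ ^ (2 * genusFF U B * 1) := by
    have := card_torsion U B ℓ 1
    rwa [pow_one] at this
  haveI : Finite (Pic0.torsion U B ℓ) := Nat.finite_of_card_ne_zero (by
    rw [hB]; exact pow_ne_zero _ hℓ.out.ne_zero)
  refine E.divisible ℓ (D.divisible hG ?_) c
  filter_upwards [hN ℓ] with i hNi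
  obtain ⟨φ, m, hφm⟩ := hφ i
  refine Zeta.divisible hφm ℓ ?_
  intro hdvd
  have := (Nat.prime_dvd_prime_iff_eq hℓ.out (hp i).out).mp (hℓ.out.dvd_of_dvd_pow hdvd)
  omega

/-- **the Jacobian is divisible** -/
theorem divisible (K F : Type*) [Field K] [Field F] [Algebra K F]
    [IsAlgClosed K] [CharZero K] [Fermat.Agent.FF.IsFnField K F] {n : ℕ} (hn : n ≠ 0)
    (c : Pic0 K F) : ∃ c', n • c' = c := by
  induction n using Nat.recOnMul generalizing c with
  | zero => exact absurd rfl hn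
  | one => exact ⟨c, one_smul _ _⟩
  | prime p hp =>
    haveI : Fact p.Prime := ⟨hp⟩
    exact divisible_prime K F p c
  | mul a b ha hb =>
    obtain ⟨c₁, hc₁⟩ := ha (left_ne_zero_of_mul hn) c
    obtain ⟨c₂, hc₂⟩ := hb (right_ne_zero_of_mul hn) c₁
    exact ⟨c₂, by rw [mul_smul, hc₂, hc₁]⟩

/-- finiteness of the torsion -/
theorem finite_torsion (K F : Type*) [Field K] [Field F] [Algebra K F]
    [IsAlgClosed K] [CharZero K] [Fermat.Agent.FF.IsFnField K F] {n : ℕ} (hn : n ≠ 0) :
    Finite (Pic0.torsion K F n) := by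
  induction n using Nat.recOnMul with
  | zero => exact absurd rfl hn
  | one =>
    have h : Pic0.torsion K F 1 = ⊥ := by
      ext x
      rw [Pic0.mem_torsion, Nat.cast_one, one_zsmul, AddSubgroup.mem_bot]
    rw [h]
    infer_instance
  | prime p hp =>
    haveI : Fact p.Prime := ⟨hp⟩
    have := card_torsion K F p 1
    rw [pow_one] at this
    exact Nat.finite_of_card_ne_zero (by rw [this]; exact pow_ne_zero _ hp.ne_zero)
  | mul a b ha hb =>
    haveI := ha (left_ne_zero_of_mul hn)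
    haveI := hb (right_ne_zero_of_mul hn)
    let f : Pic0.torsion K F (a * b) →+ Pic0.torsion K F b :=
      { toFun := fun x => ⟨a • (x : Pic0 K F), by
          have h1 := Pic0.mem_torsion.mp x.2
          rw [natCast_zsmul] at h1
          rw [Pic0.mem_torsion, natCast_zsmul, ← mul_smul, mul_comm b a]
          exact h1⟩
        map_zero' := Subtype.ext (smul_zero _)
        map_add' := fun x y => Subtype.ext (by
          show a • ((x : Pic0 K F) + (y : Pic0 K F)) = a • (x : Pic0 K F) + a • (y : Pic0 K F)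
          rw [nsmul_add]) }
    refine (AddMonoidHom.finite_iff_finite_ker_range f).mpr ⟨?_, inferInstance⟩
    refine Finite.of_injective (β := Pic0.torsion K F a) (fun x => ⟨(x : Pic0.torsion K F (a * b)), by
      have h1 : f x = 0 := x.2
      rw [Pic0.mem_torsion, natCast_zsmul]
      exact congrArg Subtype.val h1⟩) ?_
    intro x y hxy
    exact Subtype.ext (Subtype.ext (congrArg (fun z : Pic0.torsion K F a => (z : Pic0 K F)) hxy))

/-- multiplication by `a` from the `ab`-torsion to the `b`-torsion -/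
def mulTor {A : Type*} [AddCommGroup A] (a b : ℕ) : Zeta.tor A (a * b) →+ Zeta.tor A b where
  toFun x := ⟨a • (x : A), by
    have h1 := Zeta.mem_tor.mp x.2
    rw [Zeta.mem_tor, ← mul_smul, mul_comm b a]
    exact h1⟩
  map_zero' := Subtype.ext (smul_zero _)
  map_add' x y := Subtype.ext (by
    show a • ((x : A) + (y : A)) = a • (x : A) + a • (y : A)
    rw [nsmul_add])

theorem card_tor_mul {A : Type*} [AddCommGroup A] (a b : ℕ) (hdiv : ∀ c : A, ∃ c', a • c' = c) :
    Nat.card (Zeta.tor A (a * b)) = Nat.card (Zeta.tor A b) * Nat.card (Zeta.tor A a) := by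
  rw [← Zeta.card_range_mul_ker (mulTor (A := A) a b)]
  have hsurj : (mulTor (A := A) a b).range = ⊤ := by
    rw [AddMonoidHom.range_eq_top]
    rintro ⟨c, hc⟩
    obtain ⟨c', hc'⟩ := hdiv c
    refine ⟨⟨c', ?_⟩, Subtype.ext hc'⟩
    rw [Zeta.mem_tor] at hc ⊢
    rw [mul_comm, mul_smul, hc', hc]
  rw [hsurj, Nat.card_congr AddSubgroup.topEquiv.toEquiv]
  congr 1
  have h1 : ∀ x : (mulTor (A := A) a b).ker, ((x : Zeta.tor A (a * b)) : A) ∈ Zeta.tor A a := by
    intro x
    have h1 : mulTor a b (x : Zeta.tor A (a * b)) = 0 := x.2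
    exact Zeta.mem_tor.mpr (congrArg Subtype.val h1)
  have h2 : ∀ x : Zeta.tor A a, (x : A) ∈ Zeta.tor A (a * b) := by
    intro x
    have h1 := Zeta.mem_tor.mp x.2
    rw [Zeta.mem_tor, mul_comm, mul_smul, h1, smul_zero]
  have h3 : ∀ x : Zeta.tor A a, (⟨(x : A), h2 x⟩ : Zeta.tor A (a * b)) ∈
      (mulTor (A := A) a b).ker := fun x => Subtype.ext (Zeta.mem_tor.mp x.2)
  exact Nat.card_congr
    { toFun := fun x => ⟨_, h1 x⟩
      invFun := fun x => ⟨_, h3 x⟩
      left_inv := fun x => rfl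
      right_inv := fun x => rfl }

/-- **the number of `n`-torsion points of the Jacobian** -/
theorem card_torsion_nat (K F : Type*) [Field K] [Field F] [Algebra K F]
    [IsAlgClosed K] [CharZero K] [Fermat.Agent.FF.IsFnField K F] {n : ℕ} (hn : n ≠ 0) :
    Nat.card (Pic0.torsion K F n) = n ^ (2 * genusFF K F) := by
  have htor : ∀ m : ℕ, Pic0.torsion K F m = Zeta.tor (Pic0 K F) m := by
    intro m
    ext c
    rw [Pic0.mem_torsion, Zeta.mem_tor, natCast_zsmul]
  induction n using Nat.recOnMul with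
  | zero => exact absurd rfl hn
  | one =>
    have h : Pic0.torsion K F 1 = ⊥ := by
      ext x
      rw [Pic0.mem_torsion, Nat.cast_one, one_zsmul, AddSubgroup.mem_bot]
    rw [h, one_pow]
    exact Nat.card_unique
  | prime p hp =>
    haveI : Fact p.Prime := ⟨hp⟩
    have := card_torsion K F p 1
    rwa [pow_one, mul_one] at this
  | mul a b ha hb =>
    have ha0 := left_ne_zero_of_mul hn
    rw [htor, card_tor_mul a b (divisible K F ha0), ← htor, ← htor, ha ha0,
      hb (right_ne_zero_of_mul hn), mul_pow, mul_comm]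

end Fermat.Agent.Spc
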