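import Fermat.Agent.Zeta.Frob
import Mathlib.FieldTheory.RatFunc.AsPolynomial

/-! Existence of Frobenius automorphisms of function fields over an algebraic closure of `𝔽_p`. -/

set_option autoImplicit false
set_option linter.style.haveILetI false

open Polynomial AlgebraicCurve Function

namespace Fermat.Agent.Spc

/-- the subring of periodic points -/
def perSub {R : Type*} [CommRing R] (φ : R →+* R) : Subring R where
  carrier := periodicPts φ
  zero_mem' := mk_mem_periodicPts one_pos (map_zero φ)
  one_mem' := mk_mem_periodicPts one_pos (map_one φ)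
  add_mem' := by
    rintro a b ⟨m, hm, ha⟩ ⟨n, hn, hb⟩
    refine ⟨m * n, Nat.mul_pos hm hn, ?_⟩
    have h1 := ha.trans_dvd (dvd_mul_right m n)
    have h2 := hb.trans_dvd (dvd_mul_left n m)
    unfold IsPeriodicPt IsFixedPt at *
    rw [iterate_map_add, h1, h2]
  neg_mem' := by
    rintro a ⟨m, hm, ha⟩
    refine ⟨m, hm, ?_⟩
    unfold IsPeriodicPt IsFixedPt at *
    rw [iterate_map_neg, ha]
  mul_mem' := by
    rintro a b ⟨m, hm, ha⟩ ⟨n, hn, hb⟩
    refine ⟨m * n, Nat.mul_pos hm hn, ?_⟩
    have h1 := ha.trans_dvd (dvd_mul_right m n)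
    have h2 := hb.trans_dvd (dvd_mul_left n m)
    unfold IsPeriodicPt IsFixedPt at *
    rw [iterate_map_mul, h1, h2]

theorem mem_perSub {R : Type*} [CommRing R] {φ : R →+* R} {a : R} :
    a ∈ perSub φ ↔ a ∈ periodicPts φ := Iff.rfl

theorem inv_mem_perSub {R : Type*} [Field R] {φ : R →+* R} {a : R} (h : a ∈ perSub φ) :
    a⁻¹ ∈ perSub φ := by
  obtain ⟨m, hm, ha⟩ := h
  refine ⟨m, hm, ?_⟩
  have h1 : ∀ n : ℕ, ∀ b : R, (φ)^[n] b⁻¹ = ((φ)^[n] b)⁻¹ := by
    intro n
    induction n with
    | zero => intro b; rfl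
    | succ n ih => intro b; rw [iterate_succ_apply, iterate_succ_apply, map_inv₀, ih]
  unfold IsPeriodicPt IsFixedPt at *
  rw [h1, ha]

/-- finite sets of periodic points have a common period -/
theorem exists_common_period {R : Type*} [CommRing R] {φ : R →+* R} (T : Finset R)
    (h : ∀ a ∈ T, a ∈ perSub φ) : ∃ m : ℕ, 0 < m ∧ ∀ a ∈ T, (φ)^[m] a = a := by
  classical
  choose! n hn using h
  refine ⟨∏ a ∈ T, n a, Finset.prod_pos fun a ha => (hn a ha).1, fun a ha => ?_⟩
  exact (hn a ha).2.trans_dvd (Finset.dvd_prod_of_mem n ha)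

section ratfunc

variable {k : Type*} [Field k]

/-- the action on rational functions by coefficients -/
noncomputable def coeffMap (σ : k →+* k) : RatFunc k →+* RatFunc k :=
  IsFractionRing.map (A := k[X]) (B := k[X]) (j := Polynomial.mapRingHom σ)
    (Polynomial.map_injective σ σ.injective)

theorem coeffMap_algebraMap (σ : k →+* k) (f : k[X]) :
    coeffMap σ (algebraMap k[X] (RatFunc k) f) = algebraMap k[X] (RatFunc k) (f.map σ) := by
  unfold coeffMap IsFractionRing.map
  rw [IsLocalization.map_eq]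
  rfl

theorem coeffMap_iterate_C (σ : k →+* k) (a : k) (n : ℕ) :
    (coeffMap σ)^[n] (algebraMap k[X] (RatFunc k) (C a)) =
      algebraMap k[X] (RatFunc k) (C (σ^[n] a)) := by
  induction n generalizing a with
  | zero => rfl
  | succ n ih => rw [iterate_succ_apply, coeffMap_algebraMap, map_C, ih, iterate_succ_apply]

theorem ratfunc_mem_perSub {σ : k →+* k} (hσ : ∀ a : k, a ∈ perSub σ) (r : RatFunc k) :
    r ∈ perSub (coeffMap σ) := by
  have h1 : ∀ f : k[X], algebraMap k[X] (RatFunc k) f ∈ perSub (coeffMap σ) := by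
    intro f
    induction f using Polynomial.induction_on' with
    | add p q hp hq => rw [map_add]; exact add_mem hp hq
    | monomial n a =>
      rw [← C_mul_X_pow_eq_monomial, map_mul, map_pow]
      refine mul_mem ?_ (pow_mem ?_ _)
      · obtain ⟨m, hm, ha⟩ := hσ a
        refine ⟨m, hm, ?_⟩
        unfold IsPeriodicPt IsFixedPt at *
        rw [coeffMap_iterate_C, ha]
      · refine ⟨1, one_pos, ?_⟩
        unfold IsPeriodicPt IsFixedPt
        rw [iterate_one, coeffMap_algebraMap, map_X]
  obtain ⟨f, g, -, rfl⟩ := IsFractionRing.div_surjective (A := k[X]) r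
  rw [div_eq_mul_inv]
  exact mul_mem (h1 f) (inv_mem_perSub (h1 g))

end ratfunc

section frob

variable (p : ℕ) [Fact p.Prime] (k : Type*) [Field k] [CharP k p]

/-- all elements of an algebraic extension of `𝔽_p` are periodic under Frobenius -/
theorem mem_perSub_frobenius [Algebra (ZMod p) k] [Algebra.IsAlgebraic (ZMod p) k] (a : k) :
    a ∈ perSub (frobenius k p) := by
  haveI : FiniteDimensional (ZMod p) (IntermediateField.adjoin (ZMod p) {a}) :=
    IntermediateField.adjoin.finiteDimensional (Algebra.IsIntegral.isIntegral a)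
  haveI : Finite (IntermediateField.adjoin (ZMod p) {a}) := Module.finite_of_finite (ZMod p)
  haveI : Fintype (IntermediateField.adjoin (ZMod p) {a}) := Fintype.ofFinite _
  have hcard := Module.card_eq_pow_finrank (K := ZMod p)
    (V := IntermediateField.adjoin (ZMod p) {a})
  rw [ZMod.card] at hcard
  set m := Module.finrank (ZMod p) (IntermediateField.adjoin (ZMod p) {a}) with hm
  refine ⟨m, Module.finrank_pos, ?_⟩
  unfold IsPeriodicPt IsFixedPt
  rw [← coe_iterateFrobenius, iterateFrobenius_def, ← hcard]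
  have h1 := FiniteField.pow_card
    (⟨a, IntermediateField.mem_adjoin_simple_self (ZMod p) a⟩ :
      IntermediateField.adjoin (ZMod p) {a})
  exact congrArg Subtype.val h1

end frob

section frob2

variable (p : ℕ) [Fact p.Prime] {k : Type*} [Field k] [CharP k p] [Algebra (ZMod p) k]
  [Algebra.IsAlgebraic (ZMod p) k] [IsAlgClosed k]

/-- existence of Frobenius automorphisms -/
theorem exists_frob (g : (RatFunc k)[X]) [hg : Fact (Irreducible g)] :
    ∃ (φ : SemilinearAut k (AdjoinRoot g)) (m : ℕ), Zeta.Frob p φ (p ^ m) := by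
  classical
  set σ := frobenius k p with hσ
  have hper : ∀ r : RatFunc k, r ∈ perSub (coeffMap σ) :=
    ratfunc_mem_perSub (mem_perSub_frobenius p k)
  obtain ⟨m, hm, hT⟩ := exists_common_period (φ := coeffMap σ) (g.support.image g.coeff)
    (fun a _ => hper a)
  set ψ : RatFunc k →+* RatFunc k := (coeffMap σ) ^ m with hψ
  have hψapp : ∀ r, ψ r = (coeffMap σ)^[m] r := by
    intro r
    rw [hψ, RingHom.coe_pow]
  have hψC : ∀ a : k, ψ (algebraMap k (RatFunc k) a) = algebraMap k (RatFunc k) (a ^ p ^ m) := by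
    intro a
    have h1 := coeffMap_iterate_C σ a m
    rw [iterate_frobenius] at h1
    rw [hψapp]
    exact h1
  have hmap : g.map ψ = g := by
    ext n
    rw [coeff_map]
    by_cases hn : n ∈ g.support
    · rw [hψapp]
      exact hT _ (Finset.mem_image_of_mem _ hn)
    · rw [notMem_support_iff.mp hn, map_zero]
  set φF : AdjoinRoot g →+* AdjoinRoot g :=
    AdjoinRoot.lift ((AdjoinRoot.of g).comp ψ) (AdjoinRoot.root g) (by
      rw [← eval₂_map, hmap]
      exact AdjoinRoot.eval₂_root g) with hφF
  have hof : ∀ r, φF (AdjoinRoot.of g r) = AdjoinRoot.of g (ψ r) := fun r => AdjoinRoot.lift_of _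
  have hroot : φF (AdjoinRoot.root g) = AdjoinRoot.root g := AdjoinRoot.lift_root _
  have hofit : ∀ n r, φF^[n] (AdjoinRoot.of g r) = AdjoinRoot.of g (ψ^[n] r) := by
    intro n
    induction n with
    | zero => intro r; rfl
    | succ n ih => intro r; rw [iterate_succ_apply, hof, ih, iterate_succ_apply]
  have hperF : ∀ z : AdjoinRoot g, z ∈ perSub φF := by
    intro z
    induction z using AdjoinRoot.induction_on with
    | ih f =>
      induction f using Polynomial.induction_on' with
      | add p q hp hq => rw [map_add]; exact add_mem hp hq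
      | monomial n r =>
        rw [← C_mul_X_pow_eq_monomial, map_mul, map_pow, AdjoinRoot.mk_X, AdjoinRoot.mk_C]
        refine mul_mem ?_ (pow_mem ?_ _)
        · obtain ⟨n, hn, h⟩ := hper r
          refine ⟨n, hn, ?_⟩
          have h2 : ψ^[n] r = r := by
            have h3 : ⇑ψ = (coeffMap σ)^[m] := funext hψapp
            rw [h3, ← iterate_mul]
            exact h.trans_dvd (dvd_mul_left n m)
          show φF^[n] (AdjoinRoot.of g r) = AdjoinRoot.of g r
          rw [hofit, h2]
        · exact ⟨1, one_pos, hroot⟩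
  have hbij : Function.Bijective φF := by
    refine ⟨φF.injective, fun z => ?_⟩
    obtain ⟨n, hn, h⟩ := hperF z
    obtain ⟨n', rfl⟩ : ∃ n', n = n' + 1 := ⟨n - 1, by omega⟩
    refine ⟨φF^[n'] z, ?_⟩
    exact (iterate_succ_apply' φF n' z).symm.trans h
  let e : AdjoinRoot g ≃+* AdjoinRoot g := RingEquiv.ofBijective φF hbij
  let φ : SemilinearAut k (AdjoinRoot g) := ⟨(e, iterateFrobeniusEquiv k p m), by
    intro a
    show φF (AdjoinRoot.of g (algebraMap k (RatFunc k) a)) =
      AdjoinRoot.of g (algebraMap k (RatFunc k) (iterateFrobeniusEquiv k p m a))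
    rw [hof, hψC, iterateFrobeniusEquiv_apply, iterateFrobenius_def]⟩
  have hφ : ∀ n (z : AdjoinRoot g), φ ^ n • z = φF^[n] z := by
    intro n
    induction n with
    | zero => intro z; rw [pow_zero, one_smul]; rfl
    | succ n ih => intro z; rw [pow_succ, mul_smul, ih, iterate_succ_apply]; rfl
  refine ⟨φ, m, ?_, dvd_pow_self p hm.ne', ?_, ?_⟩
  · calc 2 ≤ p := (Fact.out : p.Prime).two_le
      _ ≤ p ^ m := Nat.le_self_pow hm.ne' p
  · intro a
    show iterateFrobeniusEquiv k p m a = _
    rw [iterateFrobeniusEquiv_apply, iterateFrobenius_def]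
  · intro z
    obtain ⟨n, hn, h⟩ := hperF z
    refine ⟨n, hn.ne', ?_⟩
    rw [hφ]
    exact h

end frob2

end Fermat.Agent.Spc
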