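import Fermat.Agent.Spc.Link

/-! Torsion of the Jacobian in characteristic zero. -/

set_option autoImplicit false
set_option linter.style.haveILetI false

open Polynomial AlgebraicCurve Filter Module
open Fermat.Agent.Ultra Fermat.Agent.BCh

namespace Fermat.Agent.Spc

/-- **the number of `ℓ^k`-torsion points of the Jacobian** -/
theorem card_torsion (K F : Type*) [Field K] [Field F] [Algebra K F]
    [IsAlgClosed K] [CharZero K] [Fermat.Agent.FF.IsFnField K F] (ℓ : ℕ) [hℓ : Fact ℓ.Prime]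
    (k : ℕ) : Nat.card (Pic0.torsion K F (ℓ ^ k)) = ℓ ^ (2 * genusFF K F * k) := by
  obtain ⟨I, 𝒰, p, hp, kk, h1, h2, h3, Fi, h4, h5, h6, G, hG, U, B, h7, h8, h9, h10, D, h11, E,
    hN, hφ⟩ := exists_link K F
  haveI : IsAlgClosed U := D.toUFam.isAlgClosed
  haveI : Fermat.Agent.FF.IsFnField U B := D.isFnField hG
  haveI : RRC.FF U B := RRC.ff_of_isFnField U B
  haveI : RRC.FF K F := RRC.ff_of_isFnField K F
  have hgen := D.genus_eq hG
  have hcard : ∀ᶠ i in (𝒰 : Filter I),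
      Nat.card (Pic0.torsion (kk i) (Fi i) (ℓ ^ k)) = ℓ ^ (2 * genusFF U B * k) := by
    filter_upwards [hgen, hN ℓ] with i hi hNi
    obtain ⟨φ, m, hφm⟩ := hφ i
    rw [← hi]
    refine Zeta.card_torsion hφm ℓ ?_ k
    intro hdvd
    have := (Nat.prime_dvd_prime_iff_eq hℓ.out (hp i).out).mp (hℓ.out.dvd_of_dvd_pow hdvd)
    omega
  have hne : ℓ ^ (2 * genusFF U B * k) ≠ 0 := pow_ne_zero _ hℓ.out.ne_zero
  have hB := D.card_torsion hG hne hcard
  haveI : Finite (Pic0.torsion U B (ℓ ^ k)) := Nat.finite_of_card_ne_zero (by rw [hB]; exact hne)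
  rw [E.card_torsion, hB, E.genus_eq]

end Fermat.Agent.Spc
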