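import Fermat.Agent.FF.FnField
import Mathlib

/-! Function fields from differentials. -/

set_option autoImplicit false
set_option linter.style.haveILetI false

open KaehlerDifferential AlgebraicCurve
open scoped IntermediateField.algebraAdjoinAdjoin

namespace Fermat.Agent.Spc

theorem isFnField_of_finrank_kaehler (K F : Type*) [Field K] [Field F] [Algebra K F] [CharZero K]
    [Algebra.EssFiniteType K F] (h : Module.finrank F Ω[F⁄K] = 1) : Fermat.Agent.FF.IsFnField K F := by
  classical
  refine ⟨inferInstance, ?_⟩
  obtain ⟨s, hs, hsep⟩ := exists_isTranscendenceBasis_and_isSeparable_of_perfectField K F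
  set A := Algebra.adjoin K (s : Set F) with hA
  set E := IntermediateField.adjoin K (s : Set F) with hE
  have hr : Set.range ((↑) : s → F) = (s : Set F) := by simp
  let S := MvPolynomial s K
  let e0 : S ≃ₐ[K] Algebra.adjoin K (Set.range ((↑) : s → F)) := hs.1.aevalEquiv
  let e1 : Algebra.adjoin K (Set.range ((↑) : s → F)) ≃ₐ[K] A :=
    Subalgebra.equivOfEq _ _ (by rw [hr])
  let e : S ≃ₐ[K] A := e0.trans e1
  letI : Algebra S A := e.toAlgHom.toRingHom.toAlgebra
  haveI : IsScalarTower K S A := IsScalarTower.of_algebraMap_eq fun a => (e.commutes a).symm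
  letI : Algebra S F := ((algebraMap A F).comp e.toAlgHom.toRingHom).toAlgebra
  haveI : IsScalarTower S A F := IsScalarTower.of_algebraMap_eq fun _ => rfl
  haveI : IsScalarTower K S F := IsScalarTower.of_algebraMap_eq fun a => by
    show _ = algebraMap A F (e (algebraMap K S a))
    rw [e.commutes]
    rfl
  let eS : S ≃ₐ[S] A := AlgEquiv.ofRingEquiv (f := e.toRingEquiv) (fun _ => rfl)
  haveI : Algebra.FormallyEtale S A := Algebra.FormallyEtale.of_equiv eS
  haveI : Algebra.FormallyEtale A E :=
    Algebra.FormallyEtale.of_isLocalization (nonZeroDivisors A)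
  haveI : Algebra.FormallyEtale E F := Algebra.FormallyEtale.of_isSeparable _ _
  haveI : Algebra.FormallyEtale A F := Algebra.FormallyEtale.comp A E F
  haveI : Algebra.FormallyEtale S F := Algebra.FormallyEtale.comp S A F
  let b := ((mvPolynomialBasis K s).baseChange F).map (tensorKaehlerEquivOfFormallyEtale K S F)
  have h1 := Module.finrank_eq_nat_card_basis b
  rw [h] at h1
  have h2 := hs.lift_cardinalMk_eq_trdeg
  have h3 : Cardinal.mk s = 1 := by
    rw [← Cardinal.cast_toNat_of_lt_aleph0 (Cardinal.lt_aleph0_of_finite s)]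
    have : Cardinal.toNat (Cardinal.mk s) = 1 := h1.symm
    rw [this, Nat.cast_one]
  rw [h3] at h2
  simpa using h2.symm

end Fermat.Agent.Spc
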