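import Mathlib

/-! Specialization homomorphisms to positive characteristic. -/

set_option autoImplicit false
set_option linter.style.haveILetI false

namespace Fermat.Agent.Spc

theorem isJacobsonRing_int : IsJacobsonRing ℤ := by
  rw [isJacobsonRing_iff_prime_eq]
  intro P hP
  rcases eq_or_ne P ⊥ with rfl | hne
  · rw [eq_bot_iff]
    intro x hx
    have h1 := Ideal.mem_jacobson_bot.mp hx (3 * x)
    rw [Int.isUnit_iff] at h1
    rw [Ideal.mem_bot]
    rcases h1 with h | h
    · have : x * x = 0 := by linarith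
      exact mul_self_eq_zero.mp this
    · nlinarith [mul_self_nonneg x]
  · haveI := hP.isMaximal hne
    exact Ideal.jacobson_eq_self_of_isMaximal

theorem exists_hom_of_finite_int (κ : Type*) [Field κ] [Module.Finite ℤ κ] :
    ∃ (p : ℕ) (_ : Fact p.Prime), Nonempty (κ →+* AlgebraicClosure (ZMod p)) := by
  obtain ⟨p, hp⟩ := CharP.exists κ
  have hp0 : p ≠ 0 := by
    rintro rfl
    haveI : CharZero κ := CharP.charP_to_charZero κ
    have h1 : IsField ℤ := isField_of_isIntegral_of_isField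
      (S := κ) (FaithfulSMul.algebraMap_injective ℤ κ) (Field.toIsField _)
    exact Int.not_isField h1
  have hpp : Fact p.Prime := ⟨(CharP.char_is_prime_or_zero κ p).resolve_right hp0⟩
  letI : Algebra (ZMod p) κ := ZMod.algebra _ p
  haveI : Module.Finite (ZMod p) κ := Module.Finite.of_restrictScalars_finite ℤ _ _
  let j : κ →ₐ[ZMod p] AlgebraicClosure (ZMod p) := IsAlgClosed.lift
  exact ⟨p, hpp, ⟨j⟩⟩

theorem exists_spec_hom {K : Type*} [Field K] (S : Finset K) :
    ∃ (p : ℕ) (_ : Fact p.Prime) (ρ : Algebra.adjoin ℤ (S : Set K) →+* AlgebraicClosure (ZMod p)),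
      ∀ (s : K) (hs : s ∈ S), s ≠ 0 → ρ ⟨s, Algebra.subset_adjoin hs⟩ ≠ 0 := by
  classical
  haveI := isJacobsonRing_int
  let S' : Finset K := S ∪ S.image (fun s => s⁻¹)
  let A := Algebra.adjoin ℤ (S' : Set K)
  haveI : Algebra.FiniteType ℤ A := by
    rw [← Subalgebra.fg_iff_finiteType]
    exact ⟨S', rfl⟩
  obtain ⟨m, hm⟩ := Ideal.exists_maximal A
  letI : Field (A ⧸ m) := Ideal.Quotient.field m
  haveI : Algebra.FiniteType ℤ (A ⧸ m) := inferInstance
  haveI : Module.Finite ℤ (A ⧸ m) := finite_of_finite_type_of_isJacobsonRing ℤ (A ⧸ m)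
  obtain ⟨p, hpp, ⟨j⟩⟩ := exists_hom_of_finite_int (A ⧸ m)
  have hle : Algebra.adjoin ℤ (S : Set K) ≤ A :=
    Algebra.adjoin_mono (by simp [S'])
  refine ⟨p, hpp, j.comp
    ((Ideal.Quotient.mk m).comp (Subalgebra.inclusion hle).toRingHom), ?_⟩
  intro s hs hs0 h0
  have hinv : s⁻¹ ∈ A := Algebra.subset_adjoin (by
    simp only [S', Finset.coe_union, Finset.coe_image]
    exact Or.inr ⟨s, hs, rfl⟩)
  have hsA : s ∈ A := hle (Algebra.subset_adjoin hs)
  have h1 : (⟨s, hsA⟩ : A) * ⟨s⁻¹, hinv⟩ = 1 := Subtype.ext (mul_inv_cancel₀ hs0)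
  have h2 : j (Ideal.Quotient.mk m ⟨s, hsA⟩) = 0 := h0
  have h3 := congrArg (fun a => j (Ideal.Quotient.mk m a)) h1
  simp only [map_mul, map_one] at h3
  rw [h2, zero_mul] at h3
  exact zero_ne_one h3

end Fermat.Agent.Spc
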