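import Fermat.Agent.Spc.Frob
import Fermat.Agent.Ultra.AllInt

/-! Models of function fields given by an equation; bounds. -/

set_option autoImplicit false
set_option linter.style.haveILetI false

open Polynomial AlgebraicCurve Module IntermediateField WithZero
open Fermat.Agent.RRC Fermat.Agent.Ultra

namespace Fermat.Agent.Spc

section general

variable {k F : Type*} [Field k] [Field F] [Algebra k F]

/-- the pole divisor has degree at most `[F : k(x)]` -/
theorem degree_pd_le_finrank [IsAlgClosed k] [Fermat.Agent.FF.IsFnField k F] [RRC.FF k F] {x : F}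
    (hx : Transcendental k x) : Divisor.degree (pd k x) ≤ finrank k⟮x⟯ F := by
  classical
  have h1 := RR.sum_ord_le (K := k) (x := x⁻¹) (pd k x).support
    (RR.transcendental_inv' hx) (fun v hv => by
      have h2 : pd k x v ≠ 0 := Finsupp.mem_support_iff.mp hv
      rw [pd_apply] at h2
      rw [v.ord_inv]
      omega)
  rw [RR.adjoin_simple_inv'] at h1
  refine le_trans (le_of_eq ?_) h1
  rw [RRC.degree_eq_sum, Finsupp.sum]
  refine Finset.sum_congr rfl fun v hv => ?_
  have h2 : pd k x v ≠ 0 := Finsupp.mem_support_iff.mp hv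
  rw [pd_apply] at h2 ⊢
  rw [v.ord_inv]
  omega

/-- poles of a root of a monic equation -/
theorem mem_L_of_relation [HasPrincipalDivisors k F] {x y : F} {c d : ℕ} (a : ℕ → ℕ → k)
    (hrel : y ^ d + ∑ j ∈ Finset.range d, (∑ l ∈ Finset.range (c + 1), a j l • x ^ l) * y ^ j = 0) :
    y ∈ riemannRochSpace (c • pd k x) := by
  intro v
  by_contra hcon
  rw [not_le] at hcon
  set e : ℤ := pd k x v with he
  have he0 : 0 ≤ e := pd_nonneg x v
  have hval : (c • pd k x) v = c * e := by
    rw [Finsupp.smul_apply, nsmul_eq_mul]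
  rw [hval] at hcon
  have hVx : v.adicValuation x ≤ exp e := by
    have := mem_L_pd x v
    exact this
  have hVy1 : 1 ≤ v.adicValuation y := by
    refine le_trans ?_ hcon.le
    rw [← exp_zero, exp_le_exp]
    positivity
  have hV0 : 0 < v.adicValuation y := lt_of_lt_of_le zero_lt_one hVy1
  have hterm : ∀ j ∈ Finset.range d, v.adicValuation
      ((∑ l ∈ Finset.range (c + 1), a j l • x ^ l) * y ^ j) < v.adicValuation y ^ d := by
    intro j hj
    have h1 : v.adicValuation (∑ l ∈ Finset.range (c + 1), a j l • x ^ l) ≤ exp (c * e) := by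
      refine Valuation.map_sum_le _ fun l hl => ?_
      rw [Algebra.smul_def, map_mul, map_pow]
      calc v.adicValuation (algebraMap k F (a j l)) * v.adicValuation x ^ l
          ≤ 1 * exp e ^ l := mul_le_mul' (v.adicValuation_algebraMap_le_one _)
            (pow_le_pow_left' hVx l)
        _ = exp (l * e) := by rw [one_mul, ← exp_nsmul, nsmul_eq_mul]
        _ ≤ exp (c * e) := by
            rw [exp_le_exp]
            have : (l : ℤ) ≤ c := by
              have := Finset.mem_range.mp hl
              omega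
            exact mul_le_mul_of_nonneg_right this he0
    rw [map_mul, map_pow]
    calc v.adicValuation (∑ l ∈ Finset.range (c + 1), a j l • x ^ l) * v.adicValuation y ^ j
        ≤ exp (c * e) * v.adicValuation y ^ j := mul_le_mul_left h1 _
      _ < v.adicValuation y * v.adicValuation y ^ j :=
          mul_lt_mul_of_pos_right hcon (pow_pos hV0 j)
      _ = v.adicValuation y ^ (j + 1) := by rw [pow_succ']
      _ ≤ v.adicValuation y ^ d := pow_le_pow_right₀ hVy1 (by
          have := Finset.mem_range.mp hj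
          omega)
  have h2 : v.adicValuation (∑ j ∈ Finset.range d,
      (∑ l ∈ Finset.range (c + 1), a j l • x ^ l) * y ^ j) < v.adicValuation y ^ d := by
    refine Valuation.map_sum_lt _ ?_ hterm
    exact (pow_pos hV0 d).ne'
  rw [eq_neg_of_add_eq_zero_right hrel, Valuation.map_neg, map_pow] at h2
  exact lt_irrefl _ h2

/-- genus bound -/
theorem genus_le_of_indep [RRC.FF k F] {x y : F} {c n : ℕ} (hdeg : Divisor.degree (pd k x) ≤ n)
    (hpos : 0 < Divisor.degree (pd k x)) (hy : y ∈ riemannRochSpace (c • pd k x))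
    (hind : ∀ s : ℕ, LinearIndependent k
      (fun q : Fin (s + 1) × Fin n => x ^ (q.1 : ℕ) * y ^ (q.2 : ℕ))) :
    genusFF k F ≤ c * n ^ 2 + 1 := by
  set D := pd k x with hD
  set g := genusFF k F with hg
  set s := 2 * g with hs
  have hD0 : 0 ≤ D := pd_nonneg x
  have hmem : ∀ q : Fin (s + 1) × Fin n,
      x ^ (q.1 : ℕ) * y ^ (q.2 : ℕ) ∈ riemannRochSpace ((s + c * n) • D) := by
    intro q
    have h1 := pow_mem_L (mem_L_pd (K := k) x) (q.1 : ℕ)
    have h2 := pow_mem_L hy (q.2 : ℕ)
    refine riemannRochSpace_mono ?_ (mul_mem_L_add h1 h2)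
    rw [smul_smul, ← add_smul]
    refine nsmul_le_nsmul_left hD0 ?_
    have h3 : (q.1 : ℕ) ≤ s := Nat.lt_succ_iff.mp q.1.2
    have h4 : (q.2 : ℕ) * c ≤ c * n := by
      rw [mul_comm]
      exact Nat.mul_le_mul_left c q.2.2.le
    exact add_le_add h3 h4
  have hli : LinearIndependent k (fun q : Fin (s + 1) × Fin n =>
      (⟨_, hmem q⟩ : riemannRochSpace ((s + c * n) • D))) :=
    LinearIndependent.of_comp (riemannRochSpace ((s + c * n) • D)).subtype (hind s)
  have h1 := hli.fintype_card_le_finrank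
  rw [Fintype.card_prod, Fintype.card_fin, Fintype.card_fin] at h1
  have hdegD : Divisor.degree ((s + c * n) • D) = ((s + c * n : ℕ) : ℤ) * Divisor.degree D := by
    rw [map_nsmul, nsmul_eq_mul]
  have h2 := finrank_L_of_large (D := (s + c * n) • D) (by
    rw [hdegD]
    have : ((s + c * n : ℕ) : ℤ) * 1 ≤ ((s + c * n : ℕ) : ℤ) * Divisor.degree D :=
      mul_le_mul_of_nonneg_left (by omega) (by positivity)
    have h3 : (0 : ℤ) ≤ c * n := by positivity
    push_cast at this ⊢
    rw [hs] at this ⊢
    push_cast at this ⊢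
    linarith)
  rw [hdegD] at h2
  have h3 : ((s + c * n : ℕ) : ℤ) * Divisor.degree D ≤ ((s + c * n : ℕ) : ℤ) * n :=
    mul_le_mul_of_nonneg_left hdeg (by positivity)
  have h4 : (((s + 1) * n : ℕ) : ℤ) ≤ finrank k (riemannRochSpace ((s + c * n) • D)) := by
    exact_mod_cast h1
  rw [h2] at h4
  have h5 : (g : ℤ) ≤ c * n ^ 2 + 1 := by
    push_cast at h3 h4
    nlinarith [Int.natCast_nonneg n]
  exact_mod_cast h5

end general

section model

variable {k : Type*} [Field k]

/-- independence of monomials in `k(X)[Y]/(g)` -/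
theorem indep_monomials (g : (RatFunc k)[X]) [hg : Fact (Irreducible g)] (s : ℕ) :
    LinearIndependent k (fun q : Fin (s + 1) × Fin g.natDegree =>
      (AdjoinRoot.of g RatFunc.X) ^ (q.1 : ℕ) * (AdjoinRoot.root g) ^ (q.2 : ℕ)) := by
  classical
  rw [Fintype.linearIndependent_iff]
  intro u hu
  have hg0 : g ≠ 0 := hg.out.ne_zero
  have h1 : ∑ j : Fin g.natDegree, (algebraMap k[X] (RatFunc k)
      (∑ i : Fin (s + 1), C (u (i, j)) * X ^ (i : ℕ))) • (AdjoinRoot.root g) ^ (j : ℕ) = 0 := by
    rw [← hu, Fintype.sum_prod_type_right]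
    refine Finset.sum_congr rfl fun j _ => ?_
    rw [Algebra.smul_def, map_sum, map_sum, Finset.sum_mul]
    refine Finset.sum_congr rfl fun i _ => ?_
    rw [map_mul, map_mul, map_pow, map_pow, RatFunc.algebraMap_X, Algebra.smul_def, mul_assoc]
    rfl
  have h2 : LinearIndependent (RatFunc k)
      (fun j : Fin g.natDegree => (AdjoinRoot.root g) ^ (j : ℕ)) := by
    have h3 := (AdjoinRoot.powerBasis hg0).basis.linearIndependent
    have h4 : ((AdjoinRoot.powerBasis hg0).basis : _ → AdjoinRoot g) =
        fun j : Fin (AdjoinRoot.powerBasis hg0).dim => (AdjoinRoot.root g) ^ (j : ℕ) := by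
      ext j
      rw [PowerBasis.basis_eq_pow]
      rfl
    rw [h4] at h3
    exact h3
  rw [Fintype.linearIndependent_iff] at h2
  have h3 := h2 _ h1
  rintro ⟨i, j⟩
  have h4 := (map_eq_zero_iff _ (IsFractionRing.injective k[X] (RatFunc k))).mp (h3 j)
  have h5 := congrArg (fun q => coeff q (i : ℕ)) h4
  simp only [finsetSum_coeff, coeff_C_mul, coeff_X_pow, coeff_zero] at h5
  rw [Finset.sum_eq_single i] at h5
  · simpa using h5
  · intro b _ hb
    rw [if_neg (fun h => hb (Fin.ext h.symm)), mul_zero]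
  · intro h
    exact absurd (Finset.mem_univ _) h

theorem transcendental_of_X (g : (RatFunc k)[X]) [hg : Fact (Irreducible g)] :
    Transcendental k (AdjoinRoot.of g RatFunc.X) := by
  have h1 : Transcendental k (algebraMap (RatFunc k) (AdjoinRoot g) RatFunc.X) :=
    (transcendental_algebraMap_iff (algebraMap (RatFunc k) (AdjoinRoot g)).injective).mpr
      RatFunc.transcendental_X
  exact h1

theorem finite_adjoin_of_X (g : (RatFunc k)[X]) [hg : Fact (Irreducible g)] :
    FiniteDimensional k⟮AdjoinRoot.of g RatFunc.X⟯ (AdjoinRoot g) ∧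
    finrank k⟮AdjoinRoot.of g RatFunc.X⟯ (AdjoinRoot g) ≤ g.natDegree := by
  classical
  have hg0 : g ≠ 0 := hg.out.ne_zero
  set x := AdjoinRoot.of g RatFunc.X with hx
  have hP : ∀ r : RatFunc k, AdjoinRoot.of g r ∈ k⟮x⟯ := by
    have h1 : ∀ f : k[X], AdjoinRoot.of g (algebraMap k[X] (RatFunc k) f) ∈ k⟮x⟯ := by
      intro f
      induction f using Polynomial.induction_on' with
      | add p q hp hq => rw [map_add, map_add]; exact add_mem hp hq
      | monomial n a =>
        rw [← C_mul_X_pow_eq_monomial, map_mul, map_mul, map_pow, map_pow, RatFunc.algebraMap_X]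
        exact mul_mem (IntermediateField.algebraMap_mem k⟮x⟯ a)
          (pow_mem (IntermediateField.mem_adjoin_simple_self k x) _)
    intro r
    obtain ⟨f, f', -, rfl⟩ := IsFractionRing.div_surjective (A := k[X]) r
    rw [map_div₀]
    exact div_mem (h1 f) (h1 f')
  let pb := AdjoinRoot.powerBasis hg0
  have hspan : Submodule.span k⟮x⟯ (Set.range pb.basis) = ⊤ := by
    rw [eq_top_iff]
    intro z _
    rw [← pb.basis.sum_repr z]
    refine Submodule.sum_mem _ fun i _ => ?_
    have h2 : pb.basis.repr z i • pb.basis i =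
        (⟨AdjoinRoot.of g (pb.basis.repr z i), hP _⟩ : k⟮x⟯) • pb.basis i := by
      rw [Algebra.smul_def, Algebra.smul_def]
      rfl
    rw [h2]
    exact Submodule.smul_mem _ _ (Submodule.subset_span ⟨i, rfl⟩)
  constructor
  · exact ⟨⟨(Set.finite_range pb.basis).toFinset, by simpa using hspan⟩⟩
  · have h1 := finrank_range_le_card (R := k⟮x⟯) (pb.basis : _ → AdjoinRoot g)
    rw [Set.finrank, hspan, finrank_top, Fintype.card_fin] at h1
    exact h1


end model

/-- the model -/
theorem exists_model.{u} {k : Type u} [Field k] (p : ℕ) [Fact p.Prime] [CharP k p]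
    [Algebra (ZMod p) k]
    [Algebra.IsAlgebraic (ZMod p) k] [IsAlgClosed k] (c d : ℕ) (hd : d ≠ 0) (a : ℕ → ℕ → k) :
    ∃ (F : Type u) (_ : Field F) (_ : Algebra k F) (_ : Fermat.Agent.FF.IsFnField k F)
      (_ : RRC.FF k F) (x y : F),
      (∀ b : k, x ≠ algebraMap k F b) ∧
      (y ^ d + ∑ j ∈ Finset.range d, (∑ l ∈ Finset.range (c + 1), a j l • x ^ l) * y ^ j = 0) ∧
      HasB k x d ∧ HasB k y (c * d) ∧ genusFF k F ≤ c * d ^ 2 + 1 ∧
      ∃ (φ : SemilinearAut k F) (m : ℕ), Zeta.Frob p φ (p ^ m) := by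
  classical
  let G : (RatFunc k)[X] := X ^ d + ∑ j ∈ Finset.range d,
    C (∑ l ∈ Finset.range (c + 1), a j l • RatFunc.X ^ l) * X ^ j
  have hlt : (∑ j ∈ Finset.range d,
      C (∑ l ∈ Finset.range (c + 1), a j l • (RatFunc.X : RatFunc k) ^ l) * X ^ j :
        (RatFunc k)[X]).degree < (X ^ d : (RatFunc k)[X]).degree := by
    rw [degree_X_pow]
    refine (degree_sum_le _ _).trans_lt ?_
    rw [Finset.sup_lt_iff (by exact_mod_cast WithBot.bot_lt_coe d)]
    intro j hj
    refine (degree_C_mul_X_pow_le _ _).trans_lt ?_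
    exact_mod_cast Finset.mem_range.mp hj
  have hGdeg : G.natDegree = d := by
    apply natDegree_eq_of_degree_eq_some
    show (X ^ d + _ : (RatFunc k)[X]).degree = _
    rw [degree_add_eq_left_of_degree_lt hlt, degree_X_pow]
  have hG0 : G.natDegree ≠ 0 := by rwa [hGdeg]
  have hGne : G ≠ 0 := by
    rintro h
    rw [h, natDegree_zero] at hG0
    exact hG0 rfl
  let g := G.factor
  have hirr : Irreducible g := irreducible_factor G
  haveI : Fact (Irreducible g) := ⟨hirr⟩
  have hdvd : g ∣ G := factor_dvd_of_natDegree_ne_zero hG0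
  have hgd : g.natDegree ≤ d := by
    rw [← hGdeg]
    exact natDegree_le_of_dvd hdvd hGne
  set x : AdjoinRoot g := AdjoinRoot.of g RatFunc.X with hx
  set y : AdjoinRoot g := AdjoinRoot.root g with hy
  have hxtr : Transcendental k x := transcendental_of_X g
  obtain ⟨hfin, hrk⟩ := finite_adjoin_of_X g
  haveI : Fermat.Agent.FF.IsFnField k (AdjoinRoot g) :=
    Fermat.Agent.FF.IsFnField.of_finiteDimensional hxtr
  haveI : RRC.FF k (AdjoinRoot g) := ff_of_isFnField k (AdjoinRoot g)
  have hrel : y ^ d + ∑ j ∈ Finset.range d,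
      (∑ l ∈ Finset.range (c + 1), a j l • x ^ l) * y ^ j = 0 := by
    have h1 : AdjoinRoot.mk g G = 0 := AdjoinRoot.mk_eq_zero.mpr hdvd
    have h2 : AdjoinRoot.mk g G = y ^ d + ∑ j ∈ Finset.range d,
        (∑ l ∈ Finset.range (c + 1), a j l • x ^ l) * y ^ j := by
      show AdjoinRoot.mk g (X ^ d + ∑ j ∈ Finset.range d,
        C (∑ l ∈ Finset.range (c + 1), a j l • RatFunc.X ^ l) * X ^ j) = _
      rw [map_add, map_pow, AdjoinRoot.mk_X, map_sum]
      congr 1
      refine Finset.sum_congr rfl fun j _ => ?_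
      rw [map_mul, map_pow, AdjoinRoot.mk_X, AdjoinRoot.mk_C, map_sum]
      congr 1
      refine Finset.sum_congr rfl fun l _ => ?_
      rw [Algebra.smul_def, Algebra.smul_def, map_mul, map_pow]
      rfl
    rw [← h2, h1]
  have hnc : ∀ b : k, x ≠ algebraMap k (AdjoinRoot g) b := by
    intro b hb
    apply hxtr
    rw [hb]
    exact isAlgebraic_algebraMap b
  have hdegx : Divisor.degree (pd k x) ≤ g.natDegree :=
    (degree_pd_le_finrank hxtr).trans (by exact_mod_cast hrk)
  have hposx : 0 < Divisor.degree (pd k x) := by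
    obtain ⟨v, hv⟩ := RR.exists_ord_neg_of_transcendental hxtr
    have h1 : (Finsupp.single v (1 : ℤ) : Divisor k (AdjoinRoot g)) ≤ pd k x := by
      intro w
      rw [Finsupp.single_apply]
      split_ifs with h
      · rw [← h, pd_apply]
        omega
      · exact pd_nonneg x w
    have h2 := degree_mono h1
    rw [degree_single'] at h2
    omega
  have hyL := mem_L_of_relation a hrel
  refine ⟨AdjoinRoot g, inferInstance, inferInstance, inferInstance, inferInstance, x, y, hnc,
    hrel, ?_, ?_, ?_, exists_frob p g⟩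
  · exact ⟨pd k x, pd_nonneg x, hdegx.trans (by exact_mod_cast hgd), mem_L_pd x⟩
  · refine ⟨c • pd k x, nsmul_nonneg (pd_nonneg x) c, ?_, hyL⟩
    rw [map_nsmul, nsmul_eq_mul]
    push_cast
    exact mul_le_mul_of_nonneg_left (hdegx.trans (by exact_mod_cast hgd)) (by positivity)
  · have h1 := genus_le_of_indep (n := g.natDegree) hdegx hposx hyL (indep_monomials g)
    refine h1.trans ?_
    have : g.natDegree ^ 2 ≤ d ^ 2 := Nat.pow_le_pow_left hgd 2
    have := Nat.mul_le_mul_left c this
    omega

end Fermat.Agent.Spc
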