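import Fermat.Agent.Spc.Struct
import Fermat.Agent.Spc.Model
import Fermat.Agent.Spc.Hom
import Fermat.Agent.Spc.Tensor
import Fermat.Agent.Spc.Curve
import Fermat.Agent.BCh.Divisors
import Fermat.Agent.Ultra.Torsion
import Fermat.Agent.Zeta.Main

/-! Every function field in characteristic zero is linked to an ultraproduct of function fields over
algebraic closures of finite fields. -/

set_option autoImplicit false
set_option linter.style.haveILetI false

open Polynomial AlgebraicCurve Filter Module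
open Fermat.Agent.Ultra Fermat.Agent.BCh

namespace Fermat.Agent.Spc

theorem aeval_mul_mem_span {F U B : Type*} [Field F] [Field U] [Field B] [Algebra U B]
    (ι : F →+* B) (x f : F) (q : U[X]) :
    aeval (ι x) q * ι f ∈ Submodule.span U (Set.range ι) := by
  rw [aeval_eq_sum_range, Finset.sum_mul]
  refine Submodule.sum_mem _ fun n _ => ?_
  rw [smul_mul_assoc]
  refine Submodule.smul_mem _ _ (Submodule.subset_span ⟨x ^ n * f, ?_⟩)
  rw [map_mul, map_pow]

/-- polynomial independence from linear independence of monomials -/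
theorem poly_eq_zero {U B : Type*} [Field U] [Field B] [Algebra U B] {X' Y : B} {d : ℕ}
    (hind : ∀ s : ℕ, LinearIndependent U
      (fun q : Fin s × Fin d => X' ^ (q.1 : ℕ) * Y ^ (q.2 : ℕ)))
    (p : Fin d → U[X]) (h : ∑ j, aeval X' (p j) * Y ^ (j : ℕ) = 0) : ∀ j, p j = 0 := by
  classical
  set s := (Finset.univ : Finset (Fin d)).sup (fun j => (p j).natDegree) + 1 with hs
  have h1 := Fintype.linearIndependent_iff.mp (hind s) (fun q => (p q.2).coeff q.1) (by
    rw [← h, Fintype.sum_prod_type_right]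
    refine Finset.sum_congr rfl fun j _ => ?_
    rw [aeval_eq_sum_range' (n := s) (lt_of_le_of_lt
      (Finset.le_sup (f := fun j => (p j).natDegree) (Finset.mem_univ j)) (Nat.lt_succ_self _)),
      Finset.sum_mul, ← Fin.sum_univ_eq_sum_range
        (fun n => (p j).coeff n • X' ^ n * Y ^ (j : ℕ)) s]
    refine Finset.sum_congr rfl fun i _ => ?_
    rw [smul_mul_assoc])
  intro j
  ext n
  rw [coeff_zero]
  by_cases hn : n < s
  · exact h1 (⟨n, hn⟩, j)
  · apply coeff_eq_zero_of_natDegree_lt
    have : (p j).natDegree ≤ (Finset.univ : Finset (Fin d)).sup (fun j => (p j).natDegree) :=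
      Finset.le_sup (f := fun j => (p j).natDegree) (Finset.mem_univ j)
    omega

theorem exists_link.{u, v} (K : Type u) (F : Type v) [Field K] [Field F] [Algebra K F]
    [IsAlgClosed K] [CharZero K] [Fermat.Agent.FF.IsFnField K F] :
    ∃ (I : Type u) (𝒰 : Ultrafilter I) (p : I → ℕ) (_ : ∀ i, Fact (p i).Prime) (k : I → Type)
      (_ : ∀ i, Field (k i)) (_ : ∀ i, IsAlgClosed (k i)) (_ : ∀ i, CharP (k i) (p i))
      (Fi : I → Type) (_ : ∀ i, Field (Fi i)) (_ : ∀ i, Algebra (k i) (Fi i))
      (_ : ∀ i, RRC.FF (k i) (Fi i)) (G : ℕ) (_ : ∀ i, genusFF (k i) (Fi i) ≤ G)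
      (U B : Type u) (_ : Field U) (_ : Field B) (_ : Algebra U B) (_ : Algebra K U)
      (_ : UData 𝒰 k Fi U B) (_ : CharZero U) (_ : Ext K F U B),
      (∀ N : ℕ, ∀ᶠ i in (𝒰 : Filter I), N < p i) ∧
      ∀ i, ∃ (φ : SemilinearAut (k i) (Fi i)) (m : ℕ), Zeta.Frob (p i) φ (p i ^ m) := by
  classical
  obtain ⟨x, y, c, d, a, hd, hx, hind, halg, huniv⟩ := exists_pres.{u, v, u} K F
  choose p hp ρ hρ using fun i : Finset K => exists_spec_hom i
  let k : Finset K → Type := fun i => AlgebraicClosure (ZMod (p i))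
  let σ : ∀ i, K → k i := fun i b =>
    if h : b ∈ Algebra.adjoin ℤ (i : Set K) then ρ i ⟨b, h⟩ else 0
  have hσ : ∀ (i : Finset K) (b : K) (h : b ∈ Algebra.adjoin ℤ (i : Set K)),
      σ i b = ρ i ⟨b, h⟩ := fun i b h => dif_pos h
  choose Fi fld alg fn ff xi yi hnc hrel hBx hBy hg hφ using fun i =>
    exists_model (k := k i) (p i) c d hd (fun j l => σ i (a j l))
  let 𝒰 : Ultrafilter (Finset K) := Ultrafilter.of atTop
  have h𝒰 : (𝒰 : Filter (Finset K)) ≤ atTop := Ultrafilter.of_le _
  have hmem' : ∀ b : K, ∀ᶠ i in (𝒰 : Filter (Finset K)), b ∈ i := by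
    intro b
    refine h𝒰 ?_
    filter_upwards [eventually_ge_atTop ({b} : Finset K)] with i hi
    exact hi (Finset.mem_singleton_self b)
  have hmem : ∀ b : K, ∀ᶠ (i : Finset K) in (𝒰 : Filter (Finset K)),
      b ∈ Algebra.adjoin ℤ (i : Set K) := by
    intro b
    filter_upwards [hmem' b] with i hi using Algebra.subset_adjoin hi
  obtain ⟨U, B, hU, hB, hUB, ⟨D⟩⟩ := exists_UData 𝒰 k Fi
  let κ : K →+* U :=
    { toFun := fun b => D.mkU (fun i => σ i b)
      map_one' := by
        rw [← map_one D.mkU, D.eq_iff]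
        refine Eventually.of_forall fun i => ?_
        rw [hσ i 1 (one_mem _)]
        exact map_one (ρ i)
      map_zero' := by
        rw [← map_zero D.mkU, D.eq_iff]
        refine Eventually.of_forall fun i => ?_
        rw [hσ i 0 (zero_mem _)]
        exact map_zero (ρ i)
      map_add' := by
        intro b b'
        rw [← map_add D.mkU, D.eq_iff]
        filter_upwards [hmem b, hmem b'] with i h1 h2
        rw [Pi.add_apply, hσ i b h1, hσ i b' h2, hσ i (b + b') (add_mem h1 h2), ← map_add]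
        rfl
      map_mul' := by
        intro b b'
        rw [← map_mul D.mkU, D.eq_iff]
        filter_upwards [hmem b, hmem b'] with i h1 h2
        rw [Pi.mul_apply, hσ i b h1, hσ i b' h2, hσ i (b * b') (mul_mem h1 h2), ← map_mul]
        rfl }
  letI : Algebra K U := κ.toAlgebra
  haveI : CharZero U := charZero_of_injective_algebraMap (algebraMap K U).injective
  haveI : ∀ i, IsAlgClosed (k i) := fun i => inferInstanceAs
    (IsAlgClosed (AlgebraicClosure (ZMod (p i))))
  let xB : Bdd 𝒰 k Fi := ⟨xi, d, Eventually.of_forall hBx⟩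
  let yB : Bdd 𝒰 k Fi := ⟨yi, c * d, Eventually.of_forall hBy⟩
  have hXtr : Transcendental U (D.mkB xB) := D.transcendental (Eventually.of_forall hnc)
  have hXinj : Function.Injective (eval₂RingHom ((algebraMap U B).comp κ) (D.mkB xB)) := by
    rw [injective_iff_map_eq_zero]
    intro q hq
    by_contra hq0
    apply hXtr
    refine ⟨q.map κ, ?_, ?_⟩
    · rwa [Polynomial.map_ne_zero_iff κ.injective]
    · rw [aeval_def, eval₂_map]
      exact hq
  obtain ⟨ι, hι1, hι2, hι3⟩ := huniv B ((algebraMap U B).comp κ) (D.mkB xB) (D.mkB yB) hXinj (by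
    have h1 : (D.mkB yB) ^ d + ∑ j ∈ Finset.range d, (∑ l ∈ Finset.range (c + 1),
        ((algebraMap U B).comp κ) (a j l) * (D.mkB xB) ^ l) * (D.mkB yB) ^ j =
        D.mkB (yB ^ d + ∑ j ∈ Finset.range d, (∑ l ∈ Finset.range (c + 1),
          constHom 𝒰 k Fi (fun i => σ i (a j l)) * xB ^ l) * yB ^ j) := by
      rw [map_add, map_pow, map_sum]
      congr 1
      refine Finset.sum_congr rfl fun j _ => ?_
      rw [map_mul, map_pow, map_sum]
      congr 1
      refine Finset.sum_congr rfl fun l _ => ?_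
      rw [map_mul, map_pow, ← D.comm]
      rfl
    rw [h1, D.zeroB_iff]
    refine Eventually.of_forall fun i => ?_
    have h2 : ∀ (s : Finset ℕ) (g : ℕ → Bdd 𝒰 k Fi), (∑ j ∈ s, g j).1 i = ∑ j ∈ s, (g j).1 i := by
      intro s g
      rw [AddSubmonoidClass.coe_finsetSum, Finset.sum_apply]
    show (yi i) ^ d + (∑ j ∈ Finset.range d, (∑ l ∈ Finset.range (c + 1),
          constHom 𝒰 k Fi (fun i => σ i (a j l)) * xB ^ l) * yB ^ j : Bdd 𝒰 k Fi).1 i = 0
    rw [h2, ← hrel i]
    congr 1
    refine Finset.sum_congr rfl fun j _ => ?_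
    show (∑ l ∈ Finset.range (c + 1),
          constHom 𝒰 k Fi (fun i => σ i (a j l)) * xB ^ l : Bdd 𝒰 k Fi).1 i * (yi i) ^ j = _
    rw [h2]
    congr 1
    refine Finset.sum_congr rfl fun l _ => ?_
    rw [Algebra.smul_def]
    rfl)
  have hιalg : ∀ b : K, ι (algebraMap K F b) = algebraMap U B (algebraMap K U b) := hι1
  have hιind : ∀ {ι' : Type} {e : ι' → F}, LinearIndependent K e →
      LinearIndependent U (fun i => ι (e i)) := fun he =>
    indep_of_transcendental ι hιalg halg (by rw [hι2]; exact hXtr) he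
  have hmono : ∀ s : ℕ, LinearIndependent U
      (fun q : Fin s × Fin d => (D.mkB xB) ^ (q.1 : ℕ) * (D.mkB yB) ^ (q.2 : ℕ)) := by
    intro s
    have h1 := hιind (hind s)
    have h2 : (fun q : Fin s × Fin d => ι (x ^ (q.1 : ℕ) * y ^ (q.2 : ℕ))) =
        (fun q : Fin s × Fin d => (D.mkB xB) ^ (q.1 : ℕ) * (D.mkB yB) ^ (q.2 : ℕ)) := by
      ext q
      rw [map_mul, map_pow, map_pow, hι2, hι3]
    rwa [h2] at h1
  let E : Ext K F U B :=
    { ι := ι
      ι_alg := hιalg
      indep := fun e he => hιind he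
      frac := by
        intro z
        obtain ⟨P, hP1, hP2⟩ := exists_relation_BF D (x := xB) (m := d)
          (Eventually.of_forall hBx) (Fin.cons z (fun j : Fin d => (D.mkB yB) ^ (j : ℕ)))
        rw [Fin.sum_univ_succ, Fin.cons_zero] at hP1
        simp only [Fin.cons_succ] at hP1
        have hP0 : P 0 ≠ 0 := by
          intro h0
          rw [h0, map_zero, zero_mul, zero_add] at hP1
          have h1 := poly_eq_zero hmono (fun j => P j.succ) hP1
          obtain ⟨j, hj⟩ := hP2
          refine Fin.cases ?_ ?_ j hj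
          · intro h
            exact h h0
          · intro j h
            exact h (h1 j)
        have hne : aeval (D.mkB xB) (P 0) ≠ 0 := fun h => hXtr ⟨P 0, hP0, h⟩
        refine ⟨-∑ j : Fin d, aeval (D.mkB xB) (P j.succ) * (D.mkB yB) ^ (j : ℕ),
          aeval (D.mkB xB) (P 0), ?_, ?_, hne, ?_⟩
        · refine Submodule.neg_mem _ (Submodule.sum_mem _ fun j _ => ?_)
          have h1 := aeval_mul_mem_span ι x (y ^ (j : ℕ)) (P j.succ)
          rwa [hι2, map_pow, hι3] at h1
        · have h1 := aeval_mul_mem_span ι x 1 (P 0)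
          rwa [hι2, map_one, mul_one] at h1
        · rw [eq_div_iff hne]
          linear_combination hP1 }
  refine ⟨Finset K, 𝒰, p, hp, k, inferInstance, inferInstance, ?_, Fi, fld, alg, ff,
    c * d ^ 2 + 1, hg, U, B, hU, hB, hUB, inferInstance, D, inferInstance, E, ?_, hφ⟩
  · intro i
    exact inferInstanceAs (CharP (AlgebraicClosure (ZMod (p i))) (p i))
  · intro N
    have h1 : ∀ n ∈ Finset.Icc 1 N, ∀ᶠ i in (𝒰 : Filter (Finset K)), ¬ (p i ∣ n) := by
      intro n hn
      filter_upwards [hmem' (n : K)] with i hi hdvd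
      refine hρ i n hi ?_ ?_
      · have := (Finset.mem_Icc.mp hn).1
        exact_mod_cast (by omega : n ≠ 0)
      · have h2 : (⟨(n : K), Algebra.subset_adjoin hi⟩ : Algebra.adjoin ℤ (i : Set K)) =
            (n : Algebra.adjoin ℤ (i : Set K)) := Subtype.ext (by simp)
        rw [h2, map_natCast]
        exact (CharP.cast_eq_zero_iff (AlgebraicClosure (ZMod (p i))) (p i) n).mpr hdvd
    have h2 := (Filter.eventually_all_finset (Finset.Icc 1 N)).mpr h1
    filter_upwards [h2] with i hi
    by_contra hcon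
    exact hi (p i) (Finset.mem_Icc.mpr ⟨(hp i).out.one_lt.le, not_lt.mp hcon⟩) dvd_rfl

end Fermat.Agent.Spc
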