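import Fermat.Agent.RR.Places
import Mathlib

/-! Presentations of function fields. -/

set_option autoImplicit false
set_option linter.style.haveILetI false

open Polynomial AlgebraicCurve IntermediateField

namespace Fermat.Agent.Spc

theorem exists_pres.{u, v, w} (K : Type u) (F : Type v) [Field K] [Field F] [Algebra K F]
    [IsAlgClosed K] [CharZero K] [Fermat.Agent.FF.IsFnField K F] :
    ∃ (x y : F) (c d : ℕ) (a : ℕ → ℕ → K), d ≠ 0 ∧ Transcendental K x ∧
      (∀ s : ℕ, LinearIndependent K (fun q : Fin s × Fin d => x ^ (q.1 : ℕ) * y ^ (q.2 : ℕ))) ∧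
      (∀ f : F, ∃ q : K[X][X], q ≠ 0 ∧ eval₂ (aeval x : K[X] →ₐ[K] F).toRingHom f q = 0) ∧
      (∀ (B : Type w) [Field B] (κ : K →+* B) (X Y : B),
        Function.Injective (eval₂RingHom κ X) →
        Y ^ d + ∑ j ∈ Finset.range d, (∑ l ∈ Finset.range (c + 1), κ (a j l) * X ^ l) * Y ^ j = 0 →
        ∃ ι : F →+* B, (∀ b : K, ι (algebraMap K F b) = κ b) ∧ ι x = X ∧ ι y = Y) := by
  classical
  obtain ⟨x, hx, -⟩ := RR.exists_separating K F
  letI algX : Algebra K[X] F := (aeval x : K[X] →ₐ[K] F).toRingHom.toAlgebra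
  have hXF : ∀ p : K[X], algebraMap K[X] F p = aeval x p := fun _ => rfl
  have hinj : Function.Injective (algebraMap K[X] F) := transcendental_iff_injective.mp hx
  letI : Algebra (RatFunc K) F := (IsFractionRing.lift hinj : RatFunc K →+* F).toAlgebra
  haveI : IsScalarTower K[X] (RatFunc K) F := IsScalarTower.of_algebraMap_eq fun p =>
    (IsFractionRing.lift_algebraMap hinj p).symm
  haveI : IsScalarTower K K[X] F := IsScalarTower.of_algebraMap_eq fun b => by
    rw [hXF, algebraMap_eq, aeval_C]
  haveI : IsScalarTower K (RatFunc K) F := IsScalarTower.of_algebraMap_eq fun b => by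
    rw [IsScalarTower.algebraMap_apply K K[X] (RatFunc K), ← IsScalarTower.algebraMap_apply K[X]
      (RatFunc K) F, ← IsScalarTower.algebraMap_apply K K[X] F]
  haveI : FiniteDimensional K⟮x⟯ F := Fermat.Agent.FF.IsFnField.finiteDimensional hx
  let e := RatFunc.algEquivOfTranscendental x hx
  haveI : Module.Finite (RatFunc K) F := by
    refine Module.Finite.of_equiv_equiv (A₁ := K⟮x⟯) (B₁ := F) e.symm.toRingEquiv
      (RingEquiv.refl F) ?_
    ext z
    obtain ⟨r, rfl⟩ := e.surjective z
    show algebraMap (RatFunc K) F (e.symm (e r)) = ((e r : K⟮x⟯) : F)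
    rw [e.symm_apply_apply]
    have h1 : ∀ p : K[X], algebraMap (RatFunc K) F (algebraMap K[X] (RatFunc K) p) =
        ((e (algebraMap K[X] (RatFunc K) p) : K⟮x⟯) : F) := by
      intro p
      rw [← IsScalarTower.algebraMap_apply K[X] (RatFunc K) F, hXF,
        RatFunc.algEquivOfTranscendental_algebraMap]
      simp
    obtain ⟨f, g, -, rfl⟩ := IsFractionRing.div_surjective (A := K[X]) r
    rw [map_div₀, map_div₀, h1, h1]
    rfl
  haveI : CharZero (RatFunc K) := charZero_of_injective_algebraMap (algebraMap K (RatFunc K)).injective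
  obtain ⟨y₀, hy₀⟩ := Field.exists_primitive_element (RatFunc K) F
  have halgX : ∀ f : F, IsAlgebraic K[X] f := fun f =>
    (IsFractionRing.isAlgebraic_iff K[X] (RatFunc K) F).mpr (Algebra.IsAlgebraic.isAlgebraic f)
  obtain ⟨b, hb0, hb⟩ := (halgX y₀).exists_integral_multiple
  set y := b • y₀ with hy
  have hytop : (RatFunc K)⟮y⟯ = ⊤ := by
    rw [eq_top_iff, ← hy₀, adjoin_simple_le_iff]
    have h1 : y₀ = (algebraMap K[X] (RatFunc K) b)⁻¹ • y := by
      rw [hy, ← algebraMap_smul (RatFunc K) b y₀, smul_smul, inv_mul_cancel₀, one_smul]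
      exact (map_ne_zero_iff _ (IsFractionRing.injective K[X] (RatFunc K))).mpr hb0
    rw [h1]
    exact IntermediateField.smul_mem _ (mem_adjoin_simple_self _ y)
  have hyint : IsIntegral (RatFunc K) y := hb.tower_top
  have hyadj : Algebra.adjoin (RatFunc K) {y} = ⊤ := by
    rw [← adjoin_simple_toSubalgebra_of_isAlgebraic hyint.isAlgebraic, hytop]
    rfl
  have hmin : minpoly (RatFunc K) y = (minpoly K[X] y).map (algebraMap K[X] (RatFunc K)) :=
    minpoly.isIntegrallyClosed_eq_field_fractions' (RatFunc K) hb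
  set h := minpoly K[X] y with hh
  have hmonic : h.Monic := minpoly.monic hb
  set d := h.natDegree with hd
  have hdpos : 0 < d := minpoly.natDegree_pos hb
  set c := (Finset.range d).sup (fun j => (h.coeff j).natDegree) with hc
  have hcoef : ∀ j ∈ Finset.range d, h.coeff j =
      ∑ l ∈ Finset.range (c + 1), C ((h.coeff j).coeff l) * X ^ l := by
    intro j hj
    refine (as_sum_range' (h.coeff j) (c + 1) ?_).trans ?_
    · exact Nat.lt_succ_of_le (Finset.le_sup (f := fun j => (h.coeff j).natDegree) hj)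
    · exact Finset.sum_congr rfl fun l _ => (C_mul_X_pow_eq_monomial).symm
  have heval : ∀ {B : Type w} [Field B] (κ : K →+* B) (X' Y : B),
      eval₂ (eval₂RingHom κ X') Y h = Y ^ d + ∑ j ∈ Finset.range d,
        (∑ l ∈ Finset.range (c + 1), κ ((h.coeff j).coeff l) * X' ^ l) * Y ^ j := by
    intro B _ κ X' Y
    rw [eval₂_eq_sum_range, Finset.sum_range_succ, ← hd, hmonic.coeff_natDegree, map_one, one_mul,
      add_comm]
    congr 1
    refine Finset.sum_congr rfl fun j hj => ?_
    congr 1
    conv_lhs => rw [hcoef j hj]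
    rw [map_sum]
    refine Finset.sum_congr rfl fun l _ => ?_
    simp
  have hdeg : (minpoly (RatFunc K) y).natDegree = d := by
    rw [hmin, hmonic.natDegree_map]
  refine ⟨x, y, c, d, fun j l => (h.coeff j).coeff l, hdpos.ne', hx, ?_, ?_, ?_⟩
  · intro s
    rw [Fintype.linearIndependent_iff]
    intro u hu
    have h1 : ∑ j : Fin d, (algebraMap K[X] (RatFunc K)
        (∑ i : Fin s, C (u (i, j)) * X ^ (i : ℕ))) • y ^ (j : ℕ) = 0 := by
      rw [← hu, Fintype.sum_prod_type_right]
      refine Finset.sum_congr rfl fun j _ => ?_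
      rw [Algebra.smul_def, ← IsScalarTower.algebraMap_apply K[X] (RatFunc K) F, hXF, map_sum,
        Finset.sum_mul]
      refine Finset.sum_congr rfl fun i _ => ?_
      rw [map_mul, map_pow, aeval_C, aeval_X, Algebra.smul_def, mul_assoc]
    have h2 := linearIndependent_pow (K := RatFunc K) y
    rw [hdeg, Fintype.linearIndependent_iff] at h2
    have h3 := h2 _ h1
    rintro ⟨i, j⟩
    have h4 := (map_eq_zero_iff _ (IsFractionRing.injective K[X] (RatFunc K))).mp (h3 j)
    have h5 := congrArg (fun q => coeff q (i : ℕ)) h4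
    simp only [finsetSum_coeff, coeff_C_mul, coeff_X_pow, coeff_zero] at h5
    rw [Finset.sum_eq_single i] at h5
    · simpa using h5
    · intro b _ hb
      rw [if_neg (fun h => hb (Fin.ext h.symm)), mul_zero]
    · intro h
      exact absurd (Finset.mem_univ _) h
  · intro f
    exact halgX f
  · intro B _ κ X' Y hinj' hrel
    let θ : RatFunc K →+* B := IsFractionRing.lift hinj'
    have hθ : ∀ p : K[X], θ (algebraMap K[X] (RatFunc K) p) = eval₂ κ X' p := fun p =>
      IsFractionRing.lift_algebraMap hinj' p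
    letI : Algebra (RatFunc K) B := θ.toAlgebra
    let pb : PowerBasis (RatFunc K) F := PowerBasis.ofAdjoinEqTop' hyint hyadj
    have hgen : pb.gen = y := PowerBasis.ofAdjoinEqTop'_gen hyint hyadj
    have hY : aeval Y (minpoly (RatFunc K) pb.gen) = 0 := by
      rw [hgen, hmin, aeval_def, eval₂_map]
      have h6 : (algebraMap (RatFunc K) B).comp (algebraMap K[X] (RatFunc K)) =
          eval₂RingHom κ X' := by
        ext p
        · exact hθ (C p)
        · exact hθ X
      rw [h6, heval, hrel]
    let ι : F →ₐ[RatFunc K] B := pb.lift Y hY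
    have hιP : ∀ p : K[X], ι (aeval x p) = eval₂ κ X' p := by
      intro p
      rw [← hXF, IsScalarTower.algebraMap_apply K[X] (RatFunc K) F, ι.commutes]
      exact hθ p
    refine ⟨ι, ?_, ?_, ?_⟩
    · intro b
      have := hιP (C b)
      rwa [aeval_C, eval₂_C] at this
    · have := hιP X
      rwa [aeval_X, eval₂_X] at this
    · have := pb.lift_gen Y hY
      rwa [hgen] at this

end Fermat.Agent.Spc
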